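import Fermat.Agent.FF4.Dlog.KerDeriv

/-!
# Programme II, K8 leaf (L4): uniqueness of derivations on separable extensions, chain rule (helper2)

All derivations are additive maps `D : F →+ M` (`M` an `F`-vector space) with the Leibniz rule.

* `kerSubfield D hD : Subfield F` : the constants of `D`;
* `deriv_eq_zero_of_isSeparable` : `F / L` separable algebraic, `D = 0` on `L` ⇒ `D = 0`;
* `deriv_eq_zero_of_adjoin` : `F / k(x)` separable algebraic, `D = 0` on `k` and `D x = 0` ⇒ `D = 0`;
* `deriv_eq_of_adjoin` : two derivations agreeing on `k` and at `x` are equal;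
* `chain_rule` : for a field hom `β : F → E`, derivations `∂F` of `F` (`∂F x = 1`, zero on `k`) and `∂E` of `E`
  (zero on `β k`): `∂E (β g) = β (∂F g) * ∂E (β x)`.
Mathlib only.
-/

namespace Fermat.Agent.FF4.Dlog

open Polynomial IntermediateField

variable {F : Type*} [Field F] {M : Type*} [AddCommGroup M] [Module F M]

section Ker

variable (D : F →+ M) (hD : ∀ a b : F, D (a * b) = a • D b + b • D a)

include hD

theorem map_inv' (a : F) : D a⁻¹ = -(a⁻¹ ^ 2) • D a := by
  rcases eq_or_ne a 0 with rfl | ha
  · simp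
  · have h := hD a a⁻¹
    rw [mul_inv_cancel₀ ha, map_one_eq_zero' D hD] at h
    have h2 : a • D a⁻¹ = -(a⁻¹ • D a) := by
      rw [eq_neg_iff_add_eq_zero, ← h]
    have h3 : D a⁻¹ = a⁻¹ • (a • D a⁻¹) := by rw [smul_smul, inv_mul_cancel₀ ha, one_smul]
    rw [h3, h2, smul_neg, smul_smul, neg_smul, pow_two]

/-- The subfield of constants of a derivation. -/
def kerSubfield : Subfield F where
  carrier := {a | D a = 0}
  mul_mem' := by
    intro a b ha hb
    show D (a * b) = 0
    rw [hD, show D a = 0 from ha, show D b = 0 from hb, smul_zero, smul_zero, add_zero]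
  one_mem' := map_one_eq_zero' D hD
  add_mem' := by
    intro a b ha hb
    show D (a + b) = 0
    rw [map_add, show D a = 0 from ha, show D b = 0 from hb, add_zero]
  zero_mem' := map_zero D
  neg_mem' := by
    intro a ha
    show D (-a) = 0
    rw [map_neg, show D a = 0 from ha, neg_zero]
  inv_mem' := by
    intro a ha
    show D a⁻¹ = 0
    rw [map_inv' D hD, show D a = 0 from ha, smul_zero]

theorem mem_kerSubfield {a : F} : a ∈ kerSubfield D hD ↔ D a = 0 := Iff.rfl

/-- `D (f(a)) = f'(a) • D a` for a polynomial `f` with constant coefficients. -/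
theorem map_aeval_of_const {L : Type*} [Field L] [Algebra L F]
    (hL : ∀ c : L, D (algebraMap L F c) = 0) (f : L[X]) (a : F) :
    D (aeval a f) = aeval a (derivative f) • D a := by
  induction f using Polynomial.induction_on' with
  | add f g hf hg => rw [map_add, map_add, hf, hg, derivative_add, map_add, add_smul]
  | monomial n c =>
    rw [aeval_monomial, hD, map_pow' D hD, hL, smul_zero, add_zero, derivative_monomial,
      aeval_monomial, smul_smul]
    congr 1
    rw [map_mul, map_natCast]
    ring

/-- **A derivation vanishing on `L` vanishes on every separable algebraic extension of `L`.** -/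
theorem deriv_eq_zero_of_isSeparable {L : Type*} [Field L] [Algebra L F] [Algebra.IsSeparable L F]
    (hL : ∀ c : L, D (algebraMap L F c) = 0) (a : F) : D a = 0 := by
  have hsep : (minpoly L a).Separable := Algebra.IsSeparable.isSeparable L a
  have h0 : D (aeval a (minpoly L a)) = 0 := by rw [minpoly.aeval, map_zero]
  rw [map_aeval_of_const D hD hL] at h0
  have hne : aeval a (derivative (minpoly L a)) ≠ 0 :=
    hsep.aeval_derivative_ne_zero (minpoly.aeval L a)
  exact (smul_eq_zero.mp h0).resolve_left hne

/-- **A derivation vanishing on `k` and at `x` vanishes on every separable algebraic extension of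
`k(x)`.** -/
theorem deriv_eq_zero_of_adjoin (k : Type*) [Field k] [Algebra k F] (x : F)
    [Algebra.IsSeparable k⟮x⟯ F] (hk : ∀ c : k, D (algebraMap k F c) = 0) (hx : D x = 0) (a : F) :
    D a = 0 := by
  refine deriv_eq_zero_of_isSeparable D hD (L := k⟮x⟯) (fun c => ?_) a
  have hle : k⟮x⟯.toSubfield ≤ kerSubfield D hD := by
    rw [IntermediateField.adjoin_toSubfield, Subfield.closure_le]
    rintro y (⟨c, rfl⟩ | hy)
    · exact hk c
    · rw [Set.mem_singleton_iff] at hy; rw [hy]; exact hx
  exact hle c.2

end Ker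

/-- **Uniqueness of derivations**: two derivations of `F` (separable algebraic over `k(x)`) which agree
on `k` and at `x` are equal. -/
theorem deriv_eq_of_adjoin (k : Type*) [Field k] [Algebra k F] (x : F) [Algebra.IsSeparable k⟮x⟯ F]
    (D₁ D₂ : F →+ M) (h₁ : ∀ a b : F, D₁ (a * b) = a • D₁ b + b • D₁ a)
    (h₂ : ∀ a b : F, D₂ (a * b) = a • D₂ b + b • D₂ a)
    (hk : ∀ c : k, D₁ (algebraMap k F c) = D₂ (algebraMap k F c)) (hx : D₁ x = D₂ x) (a : F) :
    D₁ a = D₂ a := by
  have h := deriv_eq_zero_of_adjoin (D₁ - D₂) (fun a b => by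
    simp only [AddMonoidHom.sub_apply, h₁, h₂, smul_sub]; abel) k x
    (fun c => by rw [AddMonoidHom.sub_apply, hk, sub_self])
    (by rw [AddMonoidHom.sub_apply, hx, sub_self]) a
  rwa [AddMonoidHom.sub_apply, sub_eq_zero] at h

/-- **Chain rule.**  `F / k(x)` separable algebraic, `∂F` a derivation of `F` killing `k` with
`∂F x = 1`, `β : F →+* E` a field homomorphism, `∂E` a derivation of `E` killing `β k`.  Then
`∂E (β g) = β (∂F g) * ∂E (β x)`. -/
theorem chain_rule {E : Type*} [Field E] (k : Type*) [Field k] [Algebra k F] (x : F)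
    [Algebra.IsSeparable k⟮x⟯ F] (β : F →+* E)
    (dF : F →+ F) (hdF : ∀ a b : F, dF (a * b) = a * dF b + b * dF a)
    (hFk : ∀ c : k, dF (algebraMap k F c) = 0) (hFx : dF x = 1)
    (dE : E →+ E) (hdE : ∀ a b : E, dE (a * b) = a * dE b + b * dE a)
    (hEk : ∀ c : k, dE (β (algebraMap k F c)) = 0) (g : F) :
    dE (β g) = β (dF g) * dE (β x) := by
  let _inst : Module F E := Module.compHom E β
  have hsmul : ∀ (a : F) (e : E), a • e = β a * e := fun _ _ => rfl
  let D₁ : F →+ E := dE.comp β.toAddMonoidHom
  let D₂ : F →+ E := (AddMonoidHom.mulRight (dE (β x))).comp (β.toAddMonoidHom.comp dF)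
  have h₁ : ∀ a b : F, D₁ (a * b) = a • D₁ b + b • D₁ a := by
    intro a b
    show dE (β (a * b)) = a • dE (β b) + b • dE (β a)
    rw [map_mul, hdE, hsmul, hsmul]
  have h₂ : ∀ a b : F, D₂ (a * b) = a • D₂ b + b • D₂ a := by
    intro a b
    show β (dF (a * b)) * dE (β x) = a • (β (dF b) * dE (β x)) + b • (β (dF a) * dE (β x))
    rw [hdF, map_add, map_mul, map_mul, hsmul, hsmul]
    ring
  have h := deriv_eq_of_adjoin k x D₁ D₂ h₁ h₂
    (fun c => by
      show dE (β (algebraMap k F c)) = β (dF (algebraMap k F c)) * dE (β x)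
      rw [hEk, hFk, map_zero, zero_mul])
    (by
      show dE (β x) = β (dF x) * dE (β x)
      rw [hFx, map_one, one_mul]) g
  exact h

end Fermat.Agent.FF4.Dlog
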