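import Fermat.Agent.FF4.Dlog.PBasis
import Fermat.Agent.Val.RiemannPkgModL
import Fermat.Prelude.Thm_ModularCurve_coeff_jqModC_neg_one

/-!
# Programme II, K8 block (Q1) / K8q(b): the kernel of `Θ = q d/dq` on the reduced modular function
field (helper2)

* `theta_eq_zero_iff` : `E` a subfield of a field `L ⊇ k` (`k` perfect of characteristic `p`),
  `E / k(t)` separable, `Θ : L →+ L` a derivation of `L` (additive + Leibniz) with `Θ t ≠ 0`: for
  `g ∈ E`, `Θ g = 0 ↔ g` is a `p`-th power in `E`;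
* `dlog_eq_zero_iff` : the same for `Θ g / g`;
* `thetaFull_eq_zero_iff`, `dlogFull_eq_zero_iff` : the case `E = modularFunctionFieldFullC k N ⊆
  k((q))`, `t = j`, `k` algebraically closed of characteristic `p ∤ N`, `Θ` ANY additive Leibniz
  map with the coefficient formula `(Θ y)_n = n y_n` (so that both `thetaL k` of
  `FF4/K8/ThetaL.lean` and `theta` of `FF4/K8Series` can be fed in).
-/

set_option autoImplicit false

namespace Fermat.Agent.FF4.Dlog

open IntermediateField ModularCurve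

section Generic

variable (p : ℕ) [hp : Fact p.Prime] (k : Type*) [Field k] [PerfectField k]
  {L : Type*} [Field L] [Algebra k L] [CharP L p] (E : IntermediateField k L)

/-- **(Q1), generic form.** The kernel of a derivation of the ambient field on a subfield
separable over `k(t)`. -/
theorem theta_eq_zero_iff (t : E) [Algebra.IsSeparable k⟮t⟯ E] (Θ : L →+ L)
    (hΘ : ∀ a b : L, Θ (a * b) = a * Θ b + b * Θ a) (ht : Θ (t : L) ≠ 0) (g : E) :
    Θ (g : L) = 0 ↔ ∃ h : E, h ^ p = g := by
  have : CharP E p := by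
    have : CharP (↥E.toSubfield) p := inferInstance
    exact this
  let D : E →+ L := Θ.comp E.val.toRingHom.toAddMonoidHom
  have hD : ∀ a b : E, D (a * b) = a • D b + b • D a := by
    intro a b
    show Θ (((a * b : E) : L)) = a • Θ (b : L) + b • Θ (a : L)
    rw [MulMemClass.coe_mul, hΘ]
    rfl
  exact deriv_eq_zero_iff_of_isSeparable p k t D hD ht g

/-- **(Q1), `dlog` form.** -/
theorem dlog_eq_zero_iff (t : E) [Algebra.IsSeparable k⟮t⟯ E] (Θ : L →+ L)
    (hΘ : ∀ a b : L, Θ (a * b) = a * Θ b + b * Θ a) (ht : Θ (t : L) ≠ 0) {g : E} (hg : g ≠ 0) :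
    Θ (g : L) / (g : L) = 0 ↔ ∃ h : E, h ^ p = g := by
  have hg' : (g : L) ≠ 0 := fun h => hg (by exact_mod_cast h)
  rw [div_eq_zero_iff, or_iff_left hg']
  exact theta_eq_zero_iff p k E t Θ hΘ ht g

end Generic

section Modular

variable (N : ℕ) [NeZero N] {p : ℕ} [hp : Fact p.Prime] (k : Type*) [Field k] [IsAlgClosed k]
  [CharP k p]

omit [NeZero N] [IsAlgClosed k] in
/-- `Θ j ≠ 0` for every `Θ` with `(Θ y)_n = n y_n`: the coefficient of `q⁻¹` is `-1`. -/
theorem theta_jFullC_ne_zero (Θ : LaurentSeries k →+ LaurentSeries k)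
    (hΘc : ∀ (y : LaurentSeries k) (n : ℤ), (Θ y).coeff n = (n : k) * y.coeff n) :
    Θ ((Val.jFullC k N : modularFunctionFieldFullC k N) : LaurentSeries k) ≠ 0 := by
  intro h
  have h1 := hΘc ((Val.jFullC k N : modularFunctionFieldFullC k N) : LaurentSeries k) (-1)
  rw [h, HahnSeries.coeff_zero] at h1
  have h2 : ((Val.jFullC k N : modularFunctionFieldFullC k N) : LaurentSeries k) = jqModC k := rfl
  rw [h2, ModularCurve.coeff_jqModC_neg_one, mul_one] at h1
  have : ((-1 : ℤ) : k) = -1 := by push_cast; rfl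
  rw [this] at h1
  exact one_ne_zero (neg_eq_zero.mp h1.symm)

/-- **(Q1) for the reduced modular function field.** `Θ g = 0 ↔ g ∈ (F̃)^p`. -/
theorem thetaFull_eq_zero_iff (hpN : ¬ p ∣ N) (Θ : LaurentSeries k →+ LaurentSeries k)
    (hΘ : ∀ a b : LaurentSeries k, Θ (a * b) = a * Θ b + b * Θ a)
    (hΘc : ∀ (y : LaurentSeries k) (n : ℤ), (Θ y).coeff n = (n : k) * y.coeff n)
    (g : modularFunctionFieldFullC k N) :
    Θ (g : LaurentSeries k) = 0 ↔ ∃ h : modularFunctionFieldFullC k N, h ^ p = g := by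
  have : CharP (LaurentSeries k) p :=
    (RingHom.charP_iff (algebraMap k (LaurentSeries k))
      (algebraMap k (LaurentSeries k)).injective p).mp inferInstance
  have := Val.isSeparable_modularFunctionFieldFullC N k hp.out hpN
  exact theta_eq_zero_iff p k (modularFunctionFieldFullC k N) (Val.jFullC k N) Θ hΘ
    (theta_jFullC_ne_zero N k Θ hΘc) g

/-- **(Q1) / K8q(b) for the reduced modular function field, `dlog` form.**
`b := Θ g / g = 0 ↔ g ∈ (F̃ˣ)^p`. -/
theorem dlogFull_eq_zero_iff (hpN : ¬ p ∣ N) (Θ : LaurentSeries k →+ LaurentSeries k)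
    (hΘ : ∀ a b : LaurentSeries k, Θ (a * b) = a * Θ b + b * Θ a)
    (hΘc : ∀ (y : LaurentSeries k) (n : ℤ), (Θ y).coeff n = (n : k) * y.coeff n)
    {g : modularFunctionFieldFullC k N} (hg : g ≠ 0) :
    Θ (g : LaurentSeries k) / (g : LaurentSeries k) = 0 ↔
      ∃ h : modularFunctionFieldFullC k N, h ^ p = g := by
  have hg' : (g : LaurentSeries k) ≠ 0 := fun h => hg (by exact_mod_cast h)
  rw [div_eq_zero_iff, or_iff_left hg']
  exact thetaFull_eq_zero_iff N k hpN Θ hΘ hΘc g

end Modular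

end Fermat.Agent.FF4.Dlog
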