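import Mathlib

/-!
# Programme II, K8 spike leaf (L1): the kernel of a derivation in characteristic `p` (helper2)

Let `F` be a field of characteristic `p` and `t : F` a `p`-basis of `F` over `Fᵖ` in the sense that
every element of `F` is `∑ i < p, (a i) ^ p * t ^ i` (`IsPBasis p t`; true when `F / k(t)` is separable
algebraic with `k` perfect: `isPBasis_of_isSeparable`).  For every additive map `D : F → M` into an
`F`-vector space satisfying the Leibniz rule and `D t ≠ 0`:

* `linearIndependent_pow` (elementary form `eq_zero_of_sum_pow_mul_eq_zero`): `1, t, …, t ^ (p-1)` are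
  linearly independent over `Fᵖ`;
* `deriv_eq_zero_iff` : `D g = 0 ↔ ∃ h, h ^ p = g`.

This is the injectivity of `dlog : Pic⁰(F̃)[p] → Ω`, `[D̃] ↦ dg/g` (`p D̃ = div g`): `dg = 0 ⇒ g = hᵖ`.
Mathlib only.
-/

namespace Fermat.Agent.FF4.Dlog

open Finset

variable {F : Type*} [Field F] (p : ℕ) [hp : Fact p.Prime] [CharP F p]

/-- `t` generates `F` over the `p`-th powers: every element is `∑ i < p, (a i) ^ p * t ^ i`. -/
def IsPBasis (t : F) : Prop :=
  ∀ g : F, ∃ a : ℕ → F, g = ∑ i ∈ range p, a i ^ p * t ^ i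

variable {M : Type*} [AddCommGroup M] [Module F M]

section Leibniz

variable (D : F →+ M) (hD : ∀ a b : F, D (a * b) = a • D b + b • D a)

include hD

theorem map_one_eq_zero' : D 1 = 0 := by
  have h := hD 1 1
  rw [mul_one, one_smul] at h
  have : D 1 + 0 = D 1 + D 1 := by rw [add_zero]; exact h
  exact (add_left_cancel this).symm

theorem map_pow' (a : F) (n : ℕ) : D (a ^ n) = ((n : F) * a ^ (n - 1)) • D a := by
  induction n with
  | zero => simp [map_one_eq_zero' D hD]
  | succ n ih =>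
    rw [pow_succ, hD, ih, smul_smul, ← add_smul]
    congr 1
    rcases n with _ | n
    · simp
    · simp only [Nat.add_sub_cancel, Nat.cast_add, Nat.cast_one]
      ring

omit hp in
theorem map_pow_char (a : F) : D (a ^ p) = 0 := by
  rw [map_pow' D hD, CharP.cast_eq_zero F p, zero_mul, zero_smul]

omit hp in
theorem map_pow_char_mul (a b : F) : D (a ^ p * b) = a ^ p • D b := by
  rw [hD, map_pow_char p D hD, smul_zero, add_zero]

omit hp in
/-- `D (∑ i < n, (a i)ᵖ tⁱ) = (∑ i < n, i (a i)ᵖ t^(i-1)) • D t`. -/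
theorem map_sum_pow_mul (t : F) (a : ℕ → F) (n : ℕ) :
    D (∑ i ∈ range n, a i ^ p * t ^ i) =
      (∑ i ∈ range n, (i : F) * a i ^ p * t ^ (i - 1)) • D t := by
  rw [map_sum, sum_smul]
  refine sum_congr rfl fun i _ => ?_
  rw [map_pow_char_mul p D hD, map_pow' D hD, smul_smul]
  congr 1
  ring

end Leibniz

/-- In characteristic `p`, `(n : F) ^ p = n`. -/
theorem natCast_pow_char (n : ℕ) : ((n : F)) ^ p = n := by
  have := map_natCast (frobenius F p) n
  rwa [frobenius_def] at this

/-- **Linear independence of `1, t, …, t^(n-1)` (`n ≤ p`) over `Fᵖ`**, elementary form, for `t` with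
`D t ≠ 0`. -/
theorem eq_zero_of_sum_pow_mul_eq_zero (D : F →+ M)
    (hD : ∀ a b : F, D (a * b) = a • D b + b • D a) {t : F} (ht : D t ≠ 0) :
    ∀ n : ℕ, n ≤ p → ∀ b : ℕ → F, ∑ i ∈ range n, b i ^ p * t ^ i = 0 → ∀ i < n, b i = 0 := by
  intro n
  induction n with
  | zero => intro _ _ _ i hi; exact absurd hi (Nat.not_lt_zero i)
  | succ n ih =>
    intro hn b hsum
    -- differentiate
    have h1 : (∑ i ∈ range (n + 1), (i : F) * b i ^ p * t ^ (i - 1)) • D t = 0 := by
      rw [← map_sum_pow_mul p D hD, hsum, map_zero]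
    have h2 : ∑ i ∈ range (n + 1), (i : F) * b i ^ p * t ^ (i - 1) = 0 :=
      (smul_eq_zero.mp h1).resolve_right ht
    rw [sum_range_succ'] at h2
    simp only [Nat.cast_zero, zero_mul, add_zero, Nat.add_sub_cancel] at h2
    -- shifted family
    have h3 : ∑ i ∈ range n, (((i + 1 : ℕ) : F) * b (i + 1)) ^ p * t ^ i = 0 := by
      rw [← h2]
      refine sum_congr rfl fun i _ => ?_
      rw [mul_pow, natCast_pow_char]
    have h4 := ih (Nat.le_of_succ_le hn) (fun i => ((i + 1 : ℕ) : F) * b (i + 1)) h3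
    have hb : ∀ i < n, b (i + 1) = 0 := by
      intro i hi
      have h5 := h4 i hi
      rcases mul_eq_zero.mp h5 with h6 | h6
      · exfalso
        have hlt : i + 1 < p := lt_of_lt_of_le (Nat.succ_lt_succ hi) hn
        have hdvd : p ∣ i + 1 := (CharP.cast_eq_zero_iff F p (i + 1)).mp h6
        exact absurd (Nat.le_of_dvd (Nat.succ_pos i) hdvd) (not_le.mpr hlt)
      · exact h6
    -- the constant term
    have h0 : b 0 = 0 := by
      rw [sum_range_succ'] at hsum
      have : ∑ i ∈ range n, b (i + 1) ^ p * t ^ (i + 1) = 0 :=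
        sum_eq_zero fun i hi => by rw [hb i (mem_range.mp hi), zero_pow hp.out.ne_zero, zero_mul]
      rw [this, zero_add, pow_zero, mul_one] at hsum
      exact pow_eq_zero_iff hp.out.ne_zero |>.mp hsum
    intro i hi
    rcases i with _ | i
    · exact h0
    · exact hb i (Nat.lt_of_succ_lt_succ hi)

/-- **The kernel of a derivation is `Fᵖ`**: if `t` is a `p`-basis and `D t ≠ 0`, then
`D g = 0 ↔ g` is a `p`-th power. -/
theorem deriv_eq_zero_iff (D : F →+ M) (hD : ∀ a b : F, D (a * b) = a • D b + b • D a) {t : F}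
    (ht : D t ≠ 0) (hgen : IsPBasis p t) (g : F) : D g = 0 ↔ ∃ h : F, h ^ p = g := by
  constructor
  · intro hg
    obtain ⟨a, rfl⟩ := hgen g
    rw [map_sum_pow_mul p D hD] at hg
    have h2 : ∑ i ∈ range p, (i : F) * a i ^ p * t ^ (i - 1) = 0 :=
      (smul_eq_zero.mp hg).resolve_right ht
    obtain ⟨m, rfl⟩ : ∃ m, p = m + 1 := ⟨p - 1, (Nat.succ_pred_eq_of_pos hp.out.pos).symm⟩
    rw [sum_range_succ'] at h2
    simp only [Nat.cast_zero, zero_mul, add_zero, Nat.add_sub_cancel] at h2
    have h3 : ∑ i ∈ range m, (((i + 1 : ℕ) : F) * a (i + 1)) ^ (m + 1) * t ^ i = 0 := by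
      rw [← h2]
      refine sum_congr rfl fun i _ => ?_
      rw [mul_pow, natCast_pow_char]
    have h4 := eq_zero_of_sum_pow_mul_eq_zero (m + 1) D hD ht m (Nat.le_succ m)
      (fun i => ((i + 1 : ℕ) : F) * a (i + 1)) h3
    have ha : ∀ i < m, a (i + 1) = 0 := by
      intro i hi
      rcases mul_eq_zero.mp (h4 i hi) with h6 | h6
      · exfalso
        have hlt : i + 1 < m + 1 := Nat.succ_lt_succ hi
        have hdvd : m + 1 ∣ i + 1 := (CharP.cast_eq_zero_iff F (m + 1) (i + 1)).mp h6
        exact absurd (Nat.le_of_dvd (Nat.succ_pos i) hdvd) (not_le.mpr hlt)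
      · exact h6
    refine ⟨a 0, ?_⟩
    rw [sum_range_succ']
    have : ∑ i ∈ range m, a (i + 1) ^ (m + 1) * t ^ (i + 1) = 0 :=
      sum_eq_zero fun i hi => by
        rw [ha i (mem_range.mp hi), zero_pow (Nat.succ_ne_zero m), zero_mul]
    rw [this, zero_add, pow_zero, mul_one]
  · rintro ⟨h, rfl⟩
    exact map_pow_char p D hD h

omit hp in
/-- A `p`-th power is killed; in particular `t` with `D t ≠ 0` is not a `p`-th power. -/
theorem not_exists_pow_eq (D : F →+ M) (hD : ∀ a b : F, D (a * b) = a • D b + b • D a) {t : F}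
    (ht : D t ≠ 0) : ¬ ∃ h : F, h ^ p = t := by
  rintro ⟨h, rfl⟩
  exact ht (map_pow_char p D hD h)

/-- Version for Mathlib derivations. -/
theorem derivation_eq_zero_iff {R : Type*} [CommRing R] [Algebra R F] [Module R M]
    (D : Derivation R F M) {t : F} (ht : D t ≠ 0) (hgen : IsPBasis p t) (g : F) :
    D g = 0 ↔ ∃ h : F, h ^ p = g :=
  deriv_eq_zero_iff p (D : F →ₗ[R] M).toAddMonoidHom (fun a b => D.leibniz a b) ht hgen g

end Fermat.Agent.FF4.Dlog
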