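import Fermat.Agent.FF4.Dlog.KerDeriv

/-!
# Programme II, K8 spike leaf (L1), part 2: a separating element is a `p`-basis (helper2)

`isPBasis_of_isSeparable` : if `k` is a perfect field of characteristic `p`, `F / k` a field
extension and `t : F` with `F / k(t)` separable algebraic, then every element of `F` is
`∑ i < p, (a i) ^ p * t ^ i` (`IsPBasis p t`).  Hence (`KerDeriv`) the kernel of every derivation
`D` of `F` with `D t ≠ 0` is exactly the set of `p`-th powers (`derivation_eq_zero_iff_of_isSeparable`).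
Mathlib only.
-/

namespace Fermat.Agent.FF4.Dlog

open Finset Polynomial IntermediateField

variable {F : Type*} [Field F] (p : ℕ) [hp : Fact p.Prime] [CharP F p]

/-- The subfield `Fᵖ` of `p`-th powers. -/
def powSubfield : Subfield F := (frobenius F p).fieldRange

theorem mem_powSubfield {x : F} : x ∈ powSubfield (F := F) p ↔ ∃ y : F, y ^ p = x := by
  simp [powSubfield, RingHom.mem_fieldRange, frobenius_def]

/-- Elements of `Fᵖ[t]` are `∑ i < p, (a i)ᵖ tⁱ`. -/
theorem exists_sum_of_mem_adjoin (t : F) {g : F}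
    (hg : g ∈ Algebra.adjoin (powSubfield (F := F) p) {t}) :
    ∃ a : ℕ → F, g = ∑ i ∈ range p, a i ^ p * t ^ i := by
  rw [Algebra.adjoin_singleton_eq_range_aeval, AlgHom.mem_range] at hg
  obtain ⟨f, rfl⟩ := hg
  -- reduce modulo `X ^ p - t ^ p`
  set c : powSubfield (F := F) p := ⟨t ^ p, (mem_powSubfield p).mpr ⟨t, rfl⟩⟩ with hc
  set q : (powSubfield (F := F) p)[X] := X ^ p - C c with hq
  have hqm : q.Monic := monic_X_pow_sub_C c hp.out.ne_zero
  have hqt : aeval t q = 0 := by
    rw [hq, map_sub, map_pow, aeval_X, aeval_C]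
    exact sub_self (t ^ p)
  have hmod : aeval t f = aeval t (f %ₘ q) := by
    conv_lhs => rw [← modByMonic_add_div f q]
    rw [map_add, map_mul, hqt, zero_mul, add_zero]
  have hdeg : (f %ₘ q).natDegree < p := by
    have h1 : q.natDegree = p := natDegree_X_pow_sub_C
    have h2 := natDegree_modByMonic_lt f hqm (by
      intro h
      have := congrArg natDegree h
      rw [h1, natDegree_one] at this
      exact hp.out.ne_zero this)
    rwa [h1] at h2
  -- choose `p`-th roots of the coefficients
  have hroot : ∀ i : ℕ, ∃ y : F, y ^ p = (((f %ₘ q).coeff i : powSubfield (F := F) p) : F) :=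
    fun i => (mem_powSubfield p).mp ((f %ₘ q).coeff i).2
  choose a ha using hroot
  refine ⟨a, ?_⟩
  rw [hmod, aeval_eq_sum_range' hdeg]
  refine sum_congr rfl fun i _ => ?_
  rw [ha i, Algebra.smul_def]
  rfl

variable (k : Type*) [Field k] [PerfectField k] [Algebra k F]

/-- **A separating element is a `p`-basis.** -/
theorem isPBasis_of_isSeparable (t : F) [Algebra.IsSeparable k⟮t⟯ F] : IsPBasis p t := by
  intro g
  have : CharP k⟮t⟯ p := RingHom.charP (algebraMap k⟮t⟯ F) (algebraMap k⟮t⟯ F).injective p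
  have : ExpChar k⟮t⟯ p := ExpChar.prime hp.out
  -- `F = k(t)(Fᵖ)`
  have htop := IntermediateField.adjoin_eq_adjoin_pow_expChar_of_isSeparable' k⟮t⟯ F Set.univ p
  rw [IntermediateField.adjoin_univ] at htop
  have hg : g ∈ IntermediateField.adjoin k⟮t⟯ ((fun x : F => x ^ p) '' Set.univ) := by
    rw [← htop]; trivial
  -- the field `Fᵖ(t) = Fᵖ[t]`
  have hint : IsIntegral (powSubfield (F := F) p) t := by
    refine ⟨X ^ p - C ⟨t ^ p, (mem_powSubfield p).mpr ⟨t, rfl⟩⟩,
      monic_X_pow_sub_C _ hp.out.ne_zero, ?_⟩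
    rw [eval₂_sub, eval₂_pow, eval₂_X, eval₂_C]
    exact sub_self (t ^ p)
  have hfield := IntermediateField.adjoin_simple_toSubalgebra_of_isAlgebraic hint.isAlgebraic
  refine exists_sum_of_mem_adjoin p t ?_
  rw [← hfield]
  -- it suffices to show that `Fᵖ(t)` contains `k(t)` and `Fᵖ`
  set E := (powSubfield (F := F) p)⟮t⟯ with hE
  show g ∈ E
  have hpow : ∀ x : F, x ^ p ∈ E := fun x =>
    E.algebraMap_mem ⟨x ^ p, (mem_powSubfield p).mpr ⟨x, rfl⟩⟩
  have ht : t ∈ E := mem_adjoin_simple_self _ t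
  have : CharP k p := RingHom.charP (algebraMap k F) (algebraMap k F).injective p
  have hk : ∀ c : k, algebraMap k F c ∈ E := by
    intro c
    obtain ⟨c', rfl⟩ := surjective_frobenius k p c
    rw [frobenius_def, map_pow]
    exact hpow _
  have hkt : ∀ x : k⟮t⟯, (x : F) ∈ E := by
    intro x
    have hx : (x : F) ∈ k⟮t⟯ := x.2
    have hle : k⟮t⟯.toSubfield ≤ E.toSubfield := by
      rw [IntermediateField.adjoin_toSubfield, Subfield.closure_le]
      rintro y (⟨c, rfl⟩ | hy)
      · exact hk c
      · rw [Set.mem_singleton_iff] at hy; rw [hy]; exact ht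
    exact hle hx
  have hle2 : (IntermediateField.adjoin k⟮t⟯ ((fun x : F => x ^ p) '' Set.univ)).toSubfield ≤
      E.toSubfield := by
    rw [IntermediateField.adjoin_toSubfield, Subfield.closure_le]
    rintro y (⟨x, rfl⟩ | ⟨x, -, rfl⟩)
    · exact hkt x
    · exact hpow x
  exact hle2 hg

variable {M : Type*} [AddCommGroup M] [Module F M]

/-- **Injectivity of `dlog`**: for `F / k(t)` separable, `k` perfect of characteristic `p`, and a
derivation `D` with `D t ≠ 0`: `D g = 0 ↔ g` is a `p`-th power. -/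
theorem deriv_eq_zero_iff_of_isSeparable (t : F) [Algebra.IsSeparable k⟮t⟯ F] (D : F →+ M)
    (hD : ∀ a b : F, D (a * b) = a • D b + b • D a) (ht : D t ≠ 0) (g : F) :
    D g = 0 ↔ ∃ h : F, h ^ p = g :=
  deriv_eq_zero_iff p D hD ht (isPBasis_of_isSeparable p k t) g

end Fermat.Agent.FF4.Dlog
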